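import Fermat.Agent.S24.Mod
import Fermat.Agent.S24.Count
import Fermat.Agent.S20.H872.Index
import Fermat.Prelude.Def_ModularCurve_HeckeOperator

/-!
# S37 / NORM-ID (helper748) — the degree `[ℚ̄(X₀(Nℓ)) : ℚ̄(X₀(N))] = ℓ + 1` for a prime `ℓ ∤ N`

From S24's `ModularPackage` (`[ℚ̄(X₀(N)) : ℚ̄(j)] = #(SL₂(ℤ)/Γ₀(N)) = ψ(N)`) and the tower law.
-/

set_option autoImplicit false
set_option linter.style.haveILetI false

noncomputable section

namespace Fermat.Agent.S37.H748

open ModularCurve AlgebraicCurve IntermediateField Fermat.Agent.S24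

/-- `ℚ̄(j)` inside `ℚ̄((q))`. -/
def jField : IntermediateField Kbar (LaurentSeries Kbar) :=
  IntermediateField.adjoin Kbar {coeffEmb Kbar jq}

theorem relfinrank_jField (N : ℕ) [NeZero N] :
    jField.relfinrank (modularFunctionFieldBar N) = dedekindPsi N := by
  obtain ⟨P⟩ := nonempty_modularPackage N
  have h := P.finrank_eq
  rw [card_XX] at h
  have h1 : (IntermediateField.adjoin Kbar {jF N}).map (modularFunctionFieldBar N).val
      = jField := by
    rw [IntermediateField.adjoin_map]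
    simp [jField, jF]
  have h2 : (⊤ : IntermediateField Kbar (FF N)).map (modularFunctionFieldBar N).val
      = modularFunctionFieldBar N := by
    rw [← AlgHom.fieldRange_eq_map, IntermediateField.fieldRange_val]
  have h3 := IntermediateField.relfinrank_map_map (A := IntermediateField.adjoin Kbar {jF N})
    (B := (⊤ : IntermediateField Kbar (FF N))) (modularFunctionFieldBar N).val
  rw [h1, h2, IntermediateField.relfinrank_top_right] at h3
  rw [h3]
  exact h

theorem jField_le (N : ℕ) [NeZero N] : jField ≤ modularFunctionFieldBar N := by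
  rw [jField, IntermediateField.adjoin_le_iff]
  rintro _ rfl
  exact (jF N).2

theorem modularFunctionFieldBar_le_mul (N ℓ : ℕ) [NeZero N] [NeZero ℓ] :
    modularFunctionFieldBar N ≤ modularFunctionFieldBar (N * ℓ) := by
  intro x hx
  exact (heckeAlphaBar Kbar N ℓ ⟨x, hx⟩).2

theorem relfinrank_level (N ℓ : ℕ) [NeZero N] (hℓ : ℓ.Prime) (hℓN : ¬ ℓ ∣ N) :
    haveI : NeZero ℓ := ⟨hℓ.ne_zero⟩
    (modularFunctionFieldBar N).relfinrank (modularFunctionFieldBar (N * ℓ)) = ℓ + 1 := by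
  haveI : NeZero ℓ := ⟨hℓ.ne_zero⟩
  have h := IntermediateField.relfinrank_mul_relfinrank (jField_le N)
    (modularFunctionFieldBar_le_mul N ℓ)
  rw [relfinrank_jField N, relfinrank_jField (N * ℓ),
    Fermat.Agent.S20.H872.dedekindPsi_mul_prime_of_not_dvd (NeZero.ne N) hℓ hℓN, mul_comm] at h
  have hpos : 0 < dedekindPsi N := by
    obtain ⟨P⟩ := nonempty_modularPackage N
    have h1 := P.finrank_eq
    rw [card_XX] at h1
    haveI := P.finiteDimensional
    rw [← h1]
    exact Module.finrank_pos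
  exact Nat.eq_of_mul_eq_mul_right hpos h

/-- **Degree.** `[ℚ̄(X₀(Nℓ)) : ℚ̄(X₀(N))] = ℓ + 1` along `heckeAlphaBar`. -/
theorem finrank_heckeAlphaBar (N ℓ : ℕ) [NeZero N] (hℓ : ℓ.Prime) (hℓN : ¬ ℓ ∣ N) :
    haveI : NeZero ℓ := ⟨hℓ.ne_zero⟩
    letI := algebraAlong (heckeAlphaBar Kbar N ℓ)
    Module.finrank (FF N) (FF (N * ℓ)) = ℓ + 1 := by
  haveI : NeZero ℓ := ⟨hℓ.ne_zero⟩
  letI := algebraAlong (heckeAlphaBar Kbar N ℓ)
  have hle := modularFunctionFieldBar_le_mul N ℓ
  rw [← relfinrank_level N ℓ hℓ hℓN, IntermediateField.relfinrank_eq_finrank_of_le hle]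
  let f : FF (N * ℓ) ≃ₗ[FF N] ↥(IntermediateField.extendScalars hle) :=
    { toFun := fun x => ⟨x.1, x.2⟩
      invFun := fun x => ⟨x.1, x.2⟩
      left_inv := fun _ => rfl
      right_inv := fun _ => rfl
      map_add' := fun _ _ => rfl
      map_smul' := fun _ _ => rfl }
  exact f.finrank_eq

theorem finiteDimensional_heckeAlphaBar (N ℓ : ℕ) [NeZero N] (hℓ : ℓ.Prime) (hℓN : ¬ ℓ ∣ N) :
    haveI : NeZero ℓ := ⟨hℓ.ne_zero⟩
    letI := algebraAlong (heckeAlphaBar Kbar N ℓ)
    FiniteDimensional (FF N) (FF (N * ℓ)) := by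
  haveI : NeZero ℓ := ⟨hℓ.ne_zero⟩
  letI := algebraAlong (heckeAlphaBar Kbar N ℓ)
  apply Module.finite_of_finrank_pos
  rw [finrank_heckeAlphaBar N ℓ hℓ hℓN]
  exact Nat.succ_pos _

end Fermat.Agent.S37.H748
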