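import Fermat.Agent.S24.Mod
import Fermat.Prelude.Def_ModularCurve_HeckeOperator

/-!
# S37 / NORM-ID (helper748) — the `ℓ + 1` embeddings of `ℚ̄(X₀(Nℓ))` over `ℚ̄(X₀(N))`

For `g ∈ SL(2,ℤ)` let `sig M g : FF M →+* ℂ((z))` be S24's expansion embedding
(`f ↦` expansion at `∞` of `f ∘ g⁻¹` in `z = exp(2πiτ/M)`).  With `M = N ℓ`:

* `sig_alpha` : for `g ∈ Γ₀(N)`, `sig M g ∘ α = sig M 1 ∘ α` (`α` = inclusion `FF N → FF M`);
* `sig_one` : `sig M 1 x = x(z^M)` (coefficients via `ιK`);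
* `sig_beta` : for `h ∈ Γ₀(N)` with `ℓ ∣ h₁₁ - b h₁₀`,
  `sig M h⁻¹ (β y) = y(ζ_ℓ^b z^N)` (`β` = `q ↦ q^ℓ`).
-/

set_option autoImplicit false
set_option linter.style.haveILetI false

noncomputable section

namespace Fermat.Agent.S37.H748

open ModularCurve HahnSeries UpperHalfPlane AlgebraicCurve
open Fermat.Agent.S24 Fermat.Agent.S24.H997 Fermat.Agent.S24.H624 Fermat.Agent.S20.L1
open scoped MatrixGroups Real

/-! ### Formal lemmas on Laurent series -/

theorem coeffMap_qExpand748 {R S : Type*} [CommRing R] [CommRing S] (f : R →+* S) (n : ℕ)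
    [NeZero n] (x : LaurentSeries R) : coeffMap f (qExpand R n x) = qExpand S n (coeffMap f x) := by
  ext k
  by_cases hk : (n : ℤ) ∣ k
  · obtain ⟨m, rfl⟩ := hk
    rw [coeffMap_coeff, qExpand_coeff_mul, qExpand_coeff_mul, coeffMap_coeff]
  · rw [coeffMap_coeff, qExpand_coeff_of_not_dvd n _ hk, qExpand_coeff_of_not_dvd n _ hk,
      map_zero]

theorem infTwist_qExpand748 {R : Type*} [CommRing R] (u : Rˣ) (n : ℕ) [NeZero n]
    (x : LaurentSeries R) : infTwist u (qExpand R n x) = qExpand R n (infTwist (u ^ n) x) := by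
  ext k
  by_cases hk : (n : ℤ) ∣ k
  · obtain ⟨m, rfl⟩ := hk
    rw [infTwist_coeff, qExpand_coeff_mul, qExpand_coeff_mul, infTwist_coeff, zpow_mul,
      zpow_natCast]
  · rw [infTwist_coeff, qExpand_coeff_of_not_dvd n _ hk, qExpand_coeff_of_not_dvd n _ hk,
      zero_mul]

theorem infRoot_pow748 (b : ℤ) (n d : ℕ) : infRoot b n ^ d = infRoot (d * b) n := by
  apply Units.ext
  rw [Units.val_pow_eq_pow_val, infRoot_coe, infRoot_coe, ← Complex.exp_nat_mul]
  congr 1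
  push_cast
  ring

theorem infRoot_pow_mul748 (b : ℤ) (n d : ℕ) (hd : 0 < d) :
    infRoot b (d * n) ^ d = infRoot b n := by
  apply Units.ext
  rw [Units.val_pow_eq_pow_val, infRoot_coe, infRoot_coe, ← Complex.exp_nat_mul]
  congr 1
  have hd' : (d : ℂ) ≠ 0 := by exact_mod_cast hd.ne'
  push_cast
  by_cases hn : (n : ℂ) = 0
  · rw [hn]; simp
  · field_simp

theorem coeffMap_ιK_coeffEmb (x : LaurentSeries ℚ) :
    coeffMap ιK (coeffEmb Kbar x) = coeffEmb ℂ x := by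
  ext k
  rw [coeffMap_coeff, coeffEmb_coeff, coeffEmb_coeff, ιK_algebraMap]
  rfl

/-! ### Generators and extensionality for ring homs out of `FF N` -/

variable (N : ℕ) [NeZero N]

/-- The generator `j(q^d)` of `FF N`. -/
def jgen (d : ℕ) [NeZero d] (hd : d ∣ N) : FF N := inclRN N (jR N d hd)

theorem coe_jgen (d : ℕ) [NeZero d] (hd : d ∣ N) :
    ((jgen N d hd : FF N) : LaurentSeries Kbar) = coeffEmb Kbar (qExpand ℚ d jq) := rfl

theorem ringHom_ext_FF {L : Type*} [DivisionRing L] (φ ψ : FF N →+* L)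
    (hc : ∀ c : Kbar, φ (algebraMap Kbar (FF N) c) = ψ (algebraMap Kbar (FF N) c))
    (hj : ∀ (d : ℕ) [NeZero d] (hd : d ∣ N), φ (jgen N d hd) = ψ (jgen N d hd)) : φ = ψ := by
  have hR : ∀ r : RN N, φ (inclRN N r) = ψ (inclRN N r) := by
    rintro ⟨r, hr⟩
    induction hr using Algebra.adjoin_induction with
    | mem x hx =>
        obtain ⟨y, ⟨d, hne, hd, rfl⟩, rfl⟩ := hx
        exact hj d hd
    | algebraMap c =>
        have : inclRN N ⟨algebraMap Kbar (LaurentSeries Kbar) c, Subalgebra.algebraMap_mem _ c⟩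
            = algebraMap Kbar (FF N) c := rfl
        rw [this]
        exact hc c
    | add x y hx hy ihx ihy =>
        have : (⟨x + y, add_mem hx hy⟩ : RN N) = ⟨x, hx⟩ + ⟨y, hy⟩ := rfl
        rw [this, map_add, map_add, map_add, ihx, ihy]
    | mul x y hx hy ihx ihy =>
        have : (⟨x * y, mul_mem hx hy⟩ : RN N) = ⟨x, hx⟩ * ⟨y, hy⟩ := rfl
        rw [this, map_mul, map_mul, map_mul, ihx, ihy]
  ext f
  obtain ⟨r, t, -, rfl⟩ := exists_div_inclRN N f
  rw [map_div₀, map_div₀, hR, hR]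

/-! ### The expansion embeddings -/

/-- S24's expansion embedding attached to `g ∈ SL(2,ℤ)`. -/
def sig (g : SL(2, ℤ)) : FF N →+* LaurentSeries ℂ :=
  (holBase N).sigmaG (holBase N).qexpExpansion g

theorem sig_algebraMap (g : SL(2, ℤ)) (c : Kbar) :
    sig N g (algebraMap Kbar (FF N) c) = HahnSeries.C (ιK c) :=
  (holBase N).sigmaG_algebraMap _ g c

theorem sig_jgen (g : SL(2, ℤ)) (d : ℕ) [NeZero d] (hd : d ∣ N) {φ : LaurentSeries ℂ}
    (h : InfExp N (fun τ => Jd d (g⁻¹ • τ)) φ) : sig N g (jgen N d hd) = φ := by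
  unfold sig jgen
  rw [HolBase.sigmaG_inclRN, HolBase.bridge_jR]
  exact (expInf_spec (holToExp N ((holBase N).compH g⁻¹ ((holBase N).JH d hd)))).unique h

theorem sig_one (x : FF N) : sig N 1 x = HolBase.Φ N (x : LaurentSeries Kbar) := by
  obtain ⟨r, t, -, rfl⟩ := exists_div_inclRN N x
  unfold sig
  rw [map_div₀, HolBase.sigmaG_inclRN, HolBase.sigmaG_inclRN, inv_one, HolBase.compH_one,
    HolBase.compH_one]
  have h1 : ∀ s : RN N, (holBase N).qexpExpansion.E ((holBase N).bridge s)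
      = HolBase.Φ N (s : LaurentSeries Kbar) := fun s => (holBase N).qexp_bridge s
  rw [h1, h1]
  have h2 : ((inclRN N r / inclRN N t : FF N) : LaurentSeries Kbar)
      = (r : LaurentSeries Kbar) / (t : LaurentSeries Kbar) := rfl
  rw [h2, map_div₀]

/-! ### The degeneracy maps on generators -/

variable (ℓ : ℕ) [NeZero ℓ]

theorem alpha_jgen (d : ℕ) [NeZero d] (hd : d ∣ N) :
    heckeAlphaBar Kbar N ℓ (jgen N d hd) = jgen (N * ℓ) d (hd.mul_right ℓ) :=
  Subtype.ext rfl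

theorem beta_jgen (d : ℕ) [NeZero d] (hd : d ∣ N) :
    heckeBetaBar Kbar N ℓ (jgen N d hd)
      = jgen (N * ℓ) (ℓ * d) (by rw [mul_comm N ℓ]; exact mul_dvd_mul_left ℓ hd) := by
  apply Subtype.ext
  show qExpand Kbar ℓ (coeffEmb Kbar (qExpand ℚ d jq)) = coeffEmb Kbar (qExpand ℚ (ℓ * d) jq)
  rw [← qExpand_qExpand d ℓ]
  exact (coeffMap_qExpand748 _ ℓ _).symm

/-! ### `α`: the embeddings attached to `Γ₀(N)` agree on `FF N` -/

theorem sig_alpha {g : SL(2, ℤ)} (hg : g ∈ CongruenceSubgroup.Gamma0 N) (x : FF N) :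
    sig (N * ℓ) g (heckeAlphaBar Kbar N ℓ x) = sig (N * ℓ) 1 (heckeAlphaBar Kbar N ℓ x) := by
  have h := ringHom_ext_FF N ((sig (N * ℓ) g).comp (heckeAlphaBar Kbar N ℓ).toRingHom)
    ((sig (N * ℓ) 1).comp (heckeAlphaBar Kbar N ℓ).toRingHom) ?_ ?_
  · exact RingHom.congr_fun h x
  · intro c
    show sig (N * ℓ) g (heckeAlphaBar Kbar N ℓ (algebraMap Kbar (FF N) c))
      = sig (N * ℓ) 1 (heckeAlphaBar Kbar N ℓ (algebraMap Kbar (FF N) c))
    rw [AlgHom.commutes, sig_algebraMap, sig_algebraMap]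
  · intro d _ hd
    show sig (N * ℓ) g (heckeAlphaBar Kbar N ℓ (jgen N d hd))
      = sig (N * ℓ) 1 (heckeAlphaBar Kbar N ℓ (jgen N d hd))
    rw [alpha_jgen]
    have hM : 0 < N * ℓ := Nat.pos_of_ne_zero (NeZero.ne _)
    have hd0 : 0 < d := Nat.pos_of_ne_zero (NeZero.ne d)
    have base := inf_J_mul_exp infExp_jFun hd0 hM
    rw [sig_jgen (N * ℓ) g d _ (base.congr fun τ => ?_),
      sig_jgen (N * ℓ) 1 d _ (base.congr fun τ => ?_)]
    · simp [Jd]
    · exact (Jd_inv N d hd g⁻¹ (inv_mem hg) τ).symm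

/-! ### `β`: the twisted expansions -/

theorem Jd_comp_of_cond {h : SL(2, ℤ)} (hh : h ∈ CongruenceSubgroup.Gamma0 N) (b : ℤ)
    (hb : (ℓ : ℤ) ∣ h 1 1 - b * h 1 0) (d : ℕ) (hd : d ∣ N) (τ : ℍ) :
    Jd (ℓ * d) (h • τ) = jFun (infAff d (d * b) ℓ τ) := by
  have hN : 0 < N := Nat.pos_of_ne_zero (NeZero.ne N)
  have hℓ : 0 < ℓ := Nat.pos_of_ne_zero (NeZero.ne ℓ)
  have hd0 : 0 < d := Nat.pos_of_dvd_of_pos hd hN
  have hNg : (N : ℤ) ∣ h 1 0 := by
    rw [CongruenceSubgroup.Gamma0_mem] at hh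
    exact (ZMod.intCast_zmod_eq_zero_iff_dvd _ _).mp hh
  have hdg : (d : ℤ) ∣ h 1 0 := dvd_trans (by exact_mod_cast hd) hNg
  obtain ⟨c, hc⟩ := hdg
  obtain ⟨e, he⟩ := hb
  have hdet := inf_sl_det h
  let g' : SL(2, ℤ) := ⟨!![ℓ * h 0 0, d * (h 0 1 - b * h 0 0); c, e], by
    rw [Matrix.det_fin_two_of]
    have h1 : h 1 1 = b * h 1 0 + ℓ * e := by linarith
    rw [h1, hc] at hdet
    linear_combination hdet⟩
  have key := inf_aff_smul_eq (d := ℓ * d) (a := d) (d' := ℓ) (b := d * b)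
    (Nat.mul_pos hℓ hd0) hd0 hℓ h g'
    (by simp [g']; ring) (by simp [g']; ring) (by simp [g', hc]; ring)
    (by simp [g']; linear_combination he + b * hc) τ
  show jFun (infAff (ℓ * d) 0 1 (h • τ)) = _
  rw [key, jFun_smul']

theorem sig_beta {h : SL(2, ℤ)} (hh : h ∈ CongruenceSubgroup.Gamma0 N) (b : ℤ)
    (hb : (ℓ : ℤ) ∣ h 1 1 - b * h 1 0) (y : FF N) :
    sig (N * ℓ) h⁻¹ (heckeBetaBar Kbar N ℓ y)
      = qExpand ℂ N (infTwist (infRoot b ℓ) (coeffMap ιK (y : LaurentSeries Kbar))) := by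
  have hN : 0 < N := Nat.pos_of_ne_zero (NeZero.ne N)
  have hℓ : 0 < ℓ := Nat.pos_of_ne_zero (NeZero.ne ℓ)
  have hM : 0 < N * ℓ := Nat.mul_pos hN hℓ
  have H := ringHom_ext_FF N ((sig (N * ℓ) h⁻¹).comp (heckeBetaBar Kbar N ℓ).toRingHom)
    ((qExpand ℂ N).comp ((infTwist (infRoot b ℓ)).comp
      ((coeffMap ιK).comp (modularFunctionFieldBar N).val.toRingHom))) ?_ ?_
  · exact RingHom.congr_fun H y
  · intro c
    show sig (N * ℓ) h⁻¹ (heckeBetaBar Kbar N ℓ (algebraMap Kbar (FF N) c))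
      = qExpand ℂ N (infTwist (infRoot b ℓ)
          (coeffMap ιK (algebraMap Kbar (LaurentSeries Kbar) c)))
    rw [AlgHom.commutes, sig_algebraMap, algebraMap_laurentSeries_eq_single, coeffMap_single,
      infTwist_single, qExpand_single]
    simp [HahnSeries.C_apply]
  · intro d _ hd
    show sig (N * ℓ) h⁻¹ (heckeBetaBar Kbar N ℓ (jgen N d hd))
      = qExpand ℂ N (infTwist (infRoot b ℓ)
          (coeffMap ιK (coeffEmb Kbar (qExpand ℚ d jq))))
    have hd0 : 0 < d := Nat.pos_of_ne_zero (NeZero.ne d)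
    rw [beta_jgen]
    have base := inf_J_infAff_exp infExp_jFun (N := N * ℓ) (a := d) (d := ℓ) (e := d * N)
      (d * b) hd0 hℓ hM (by ring)
    rw [sig_jgen (N * ℓ) h⁻¹ (ℓ * d) _ (base.congr fun τ => ?_)]
    · rw [infGenExp, coeffMap_ιK_coeffEmb]
      have h1 : coeffEmb ℂ (qExpand ℚ d jq) = qExpand ℂ d infJq :=
        coeffMap_qExpand748 _ d jq
      rw [h1, infTwist_qExpand748, infRoot_pow748, qExpand_qExpand d N]
      exact qExpand_congr (mul_comm d N) _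
    · rw [inv_inv]
      exact (Jd_comp_of_cond N ℓ hh b hb d hd τ).symm

end Fermat.Agent.S37.H748
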