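import Mathlib

/-!
# S37 / NORM-ID (helper748) — field theory: the norm is the product over a full list of embeddings

`norm_eq_prod_of_embeddings748` : if `E / K` is a finite extension of characteristic-zero fields
of degree `n` and `e i : E →ₐ[K] Ω` (`i : ι`, `Fintype.card ι = n`) are pairwise distinct
`K`-embeddings into any field `Ω`, then `algebraMap K Ω (Algebra.norm K x) = ∏ i, e i x`.
-/

set_option autoImplicit false

noncomputable section

namespace Fermat.Agent.S37.H748

open Module

theorem norm_eq_prod_of_embeddings748 {K E Ω : Type*} [Field K] [Field E] [Field Ω]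
    [Algebra K E] [Algebra K Ω] [CharZero K] [FiniteDimensional K E]
    {ι : Type*} [Fintype ι] (e : ι → (E →ₐ[K] Ω)) (he : Function.Injective e)
    (hcard : Fintype.card ι = Module.finrank K E) (x : E) :
    algebraMap K Ω (Algebra.norm K x) = ∏ i, e i x := by
  classical
  let Ω' := AlgebraicClosure Ω
  let c : Ω →ₐ[K] Ω' := IsScalarTower.toAlgHom K Ω Ω'
  let e' : ι → (E →ₐ[K] Ω') := fun i => c.comp (e i)
  have hcinj : Function.Injective c := c.toRingHom.injective
  have he' : Function.Injective e' := by
    intro i j hij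
    apply he
    ext y
    apply hcinj
    exact congrArg (fun f : E →ₐ[K] Ω' => f y) hij
  have hcard' : Fintype.card ι = Fintype.card (E →ₐ[K] Ω') := by
    rw [hcard, AlgHom.card K E Ω']
  have hbij : Function.Bijective e' :=
    (Fintype.bijective_iff_injective_and_card e').mpr ⟨he', hcard'⟩
  have h1 : algebraMap K Ω' (Algebra.norm K x) = ∏ σ : E →ₐ[K] Ω', σ x :=
    Algebra.norm_eq_prod_embeddings K Ω' x
  have h2 : ∏ σ : E →ₐ[K] Ω', σ x = ∏ i, e' i x :=
    (Fintype.prod_bijective e' hbij (fun i => e' i x) (fun σ => σ x) (fun _ => rfl)).symm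
  apply hcinj
  rw [map_prod]
  have h3 : c (algebraMap K Ω (Algebra.norm K x)) = algebraMap K Ω' (Algebra.norm K x) :=
    c.commutes _
  rw [h3, h1, h2]
  rfl

end Fermat.Agent.S37.H748
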