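import Fermat.Agent.S24.Inf.Subst
import Fermat.Agent.S37.H340.KronTwist
import Fermat.Agent.S37.H400.KronNorm

/-!
# S37 / NORM-ID (helper748) — `V_ℓ (det secMat f) = ∏_b f(ζ^b q)` and `kronNorm` as a product
-/

set_option autoImplicit false

noncomputable section

namespace Fermat.Agent.S37.H748

open ModularCurve HahnSeries Polynomial Matrix Fermat.Agent.S24
open Fermat.Agent.S37

theorem secMat_eq_kronMat {R : Type*} [CommRing R] (ℓ : ℕ) [NeZero ℓ] (f : LaurentSeries R) :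
    H400.secMat ℓ f = H340.kronMat ℓ f := by
  ext i j : 1
  rw [H400.secMat_apply', H340.kronMat_apply]
  ext n
  rw [H400.secL_coeff, H340.sect_coeff]

/-- `V_ℓ (det secMat f) = ∏_b f(ζ^b q)`. -/
theorem qExpand_det_secMat {R : Type*} [CommRing R] [IsDomain R] (ℓ : ℕ) [NeZero ℓ] {ζ : R}
    (hζ : IsPrimitiveRoot ζ ℓ) (f : LaurentSeries R) :
    qExpand R ℓ (H400.secMat ℓ f).det = ∏ b : Fin ℓ, H340.tw ℓ (ζ ^ (b : ℕ)) f := by
  have h := H340.kron_map_qExpand_eq_prod hζ f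
  have h0 := congrArg (fun p => p.coeff 0) h
  simp only [Polynomial.coeff_zero_eq_eval_zero, Polynomial.eval_prod, Polynomial.eval_sub,
    Polynomial.eval_X, Polynomial.eval_C, zero_sub] at h0
  rw [Finset.prod_neg, Finset.card_univ, Fintype.card_fin] at h0
  rw [secMat_eq_kronMat, RingHom.map_det, RingHom.mapMatrix_apply,
    Matrix.det_eq_sign_charpoly_coeff, Fintype.card_fin, Matrix.charpoly_map,
    Polynomial.coeff_zero_eq_eval_zero]
  have h1 : Polynomial.eval 0 (Polynomial.map (qExpand R ℓ) (H340.kronMat ℓ f).charpoly)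
      = (-1) ^ ℓ * ∏ b : Fin ℓ, H340.tw ℓ (ζ ^ (b : ℕ)) f := h0
  rw [h1, ← mul_assoc, ← mul_pow]
  simp

/-- The analytic twist by `exp(2πi b/ℓ)` is the formal twist `tw` by `ζ^b`. -/
theorem infTwist_eq_tw (ℓ : ℕ) [NeZero ℓ] (b : ℕ) (f : LaurentSeries ℂ) :
    infTwist (infRoot b ℓ) f = H340.tw ℓ (((infRoot 1 ℓ : ℂˣ) : ℂ) ^ b) f := by
  have hℓ : (ℓ : ℤ) ≠ 0 := by exact_mod_cast NeZero.ne ℓ
  have hpow : (infRoot (b : ℤ) ℓ) ^ ℓ = 1 := by
    apply Units.ext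
    rw [Units.val_pow_eq_pow_val, infRoot_coe, ← Complex.exp_nat_mul, Units.val_one]
    have hℓ' : (ℓ : ℂ) ≠ 0 := by exact_mod_cast NeZero.ne ℓ
    have : (ℓ : ℂ) * (2 * Real.pi * Complex.I * ((b : ℤ) : ℂ) / ℓ)
        = (b : ℤ) * (2 * Real.pi * Complex.I) := by
      field_simp
    rw [this, Complex.exp_int_mul_two_pi_mul_I]
  have hb : (infRoot (b : ℤ) ℓ : ℂ) = ((infRoot 1 ℓ : ℂˣ) : ℂ) ^ b := by
    rw [infRoot_coe, infRoot_coe, ← Complex.exp_nat_mul]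
    congr 1
    push_cast
    ring
  ext n
  rw [infTwist_coeff, H340.tw_coeff, mul_comm]
  congr 1
  unfold H340.zpw
  rw [← hb]
  have hn : n = (ℓ : ℤ) * (n / ℓ) + ((n % ℓ).toNat : ℤ) := by
    rw [Int.toNat_of_nonneg (Int.emod_nonneg n hℓ)]
    exact (Int.mul_ediv_add_emod n ℓ).symm
  conv_lhs => rw [hn]
  rw [_root_.zpow_add, _root_.zpow_mul, zpow_natCast, hpow, _root_.one_zpow, one_mul,
    zpow_natCast, Units.val_pow_eq_pow_val]

theorem isPrimitiveRoot_infRoot748 (ℓ : ℕ) [NeZero ℓ] :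
    IsPrimitiveRoot ((infRoot 1 ℓ : ℂˣ) : ℂ) ℓ := by
  have h := Complex.isPrimitiveRoot_exp ℓ (NeZero.ne ℓ)
  have : ((infRoot 1 ℓ : ℂˣ) : ℂ) = Complex.exp (2 * Real.pi * Complex.I / ℓ) := by
    rw [infRoot_coe]
    congr 1
    push_cast
    ring
  rw [this]
  exact h

/-- **Product formula for `kronNorm` over `ℂ`.** -/
theorem qExpand_kronNorm_eq_prod (ℓ : ℕ) [NeZero ℓ] (f : LaurentSeries ℂ) :
    qExpand ℂ ℓ (H400.kronNorm ℓ f)
      = qExpand ℂ ℓ (qExpand ℂ ℓ f) * ∏ b : Fin ℓ, infTwist (infRoot ((b : ℕ) : ℤ) ℓ) f := by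
  rw [H400.kronNorm, map_mul, qExpand_det_secMat ℓ (isPrimitiveRoot_infRoot748 ℓ) f]
  congr 1
  refine Finset.prod_congr rfl fun b _ => ?_
  exact (infTwist_eq_tw ℓ b f).symm

end Fermat.Agent.S37.H748
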