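import Fermat.Agent.S37.H748.NormField
import Fermat.Agent.S37.H748.NormDegree
import Fermat.Agent.S37.H748.NormEmbed
import Fermat.Agent.S37.H748.NormProd

/-!
# S37 / NORM-ID (helper748) — `Nm_α (β y) = kronNorm ℓ y`

For a prime `ℓ ∤ N` and `y ∈ ℚ̄(X₀(N))`, the norm of `β y = y(q^ℓ)` along the inclusion
`α : ℚ̄(X₀(N)) → ℚ̄(X₀(Nℓ))` has `q`-expansion `kronNorm ℓ y = y(q^ℓ) · det (secMat ℓ y)`
(classically `y(q^ℓ) ∏_b y(ζ^b q^{1/ℓ})`).  Together with helper400's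
`coeffMap_kronNorm_char` this is the Kronecker congruence for norms used in step (E) of the
Eichler–Shimura relation.
-/

set_option autoImplicit false
set_option linter.style.haveILetI false

noncomputable section

namespace Fermat.Agent.S37.H748

open ModularCurve HahnSeries UpperHalfPlane AlgebraicCurve
open Fermat.Agent.S24 Fermat.Agent.S24.H997 Fermat.Agent.S37
open scoped MatrixGroups Real

/-! ### Coset representatives -/

theorem exists_hmat (N ℓ : ℕ) (hcop : Nat.Coprime ℓ N) (b : ℤ) :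
    ∃ h : SL(2, ℤ), h ∈ CongruenceSubgroup.Gamma0 N ∧ (ℓ : ℤ) ∣ h 1 1 - b * h 1 0 := by
  have h1 : IsCoprime ((ℓ : ℤ) + N * b) (N : ℤ) :=
    (Nat.isCoprime_iff_coprime.mpr hcop).add_mul_left_left b
  obtain ⟨u, v, huv⟩ := h1
  refine ⟨⟨!![u, -v; N, ℓ + N * b], by rw [Matrix.det_fin_two_of]; linear_combination huv⟩,
    ?_, ?_⟩
  · rw [CongruenceSubgroup.Gamma0_mem]
    simp
  · refine ⟨1, ?_⟩
    simp
    ring

/-- A matrix `h ∈ Γ₀(N)` with `ℓ ∣ h₁₁ - b h₁₀`. -/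
def hmat (N ℓ : ℕ) (hcop : Nat.Coprime ℓ N) (b : ℤ) : SL(2, ℤ) :=
  Classical.choose (exists_hmat N ℓ hcop b)

theorem hmat_mem (N ℓ : ℕ) (hcop : Nat.Coprime ℓ N) (b : ℤ) :
    hmat N ℓ hcop b ∈ CongruenceSubgroup.Gamma0 N :=
  (Classical.choose_spec (exists_hmat N ℓ hcop b)).1

theorem hmat_dvd (N ℓ : ℕ) (hcop : Nat.Coprime ℓ N) (b : ℤ) :
    (ℓ : ℤ) ∣ (hmat N ℓ hcop b) 1 1 - b * (hmat N ℓ hcop b) 1 0 :=
  (Classical.choose_spec (exists_hmat N ℓ hcop b)).2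

/-! ### The `ℓ + 1` embeddings -/

variable (N ℓ : ℕ) [NeZero N] [NeZero ℓ] (hcop : Nat.Coprime ℓ N)

/-- The `ℓ + 1` embeddings `FF (N ℓ) → ℂ((z))`. -/
def embR (i : Option (Fin ℓ)) : FF (N * ℓ) →+* LaurentSeries ℂ :=
  match i with
  | none => sig (N * ℓ) 1
  | some b => sig (N * ℓ) (hmat N ℓ hcop ((b : ℕ) : ℤ))⁻¹

theorem embR_alpha (i : Option (Fin ℓ)) (x : FF N) :
    embR N ℓ hcop i (heckeAlphaBar Kbar N ℓ x) = sig (N * ℓ) 1 (heckeAlphaBar Kbar N ℓ x) := by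
  cases i with
  | none => rfl
  | some b => exact sig_alpha N ℓ (inv_mem (hmat_mem N ℓ hcop _)) x

theorem embR_none_beta (y : FF N) :
    embR N ℓ hcop none (heckeBetaBar Kbar N ℓ y)
      = qExpand ℂ N (qExpand ℂ ℓ (qExpand ℂ ℓ (coeffMap ιK (y : LaurentSeries Kbar)))) := by
  show sig (N * ℓ) 1 _ = _
  rw [sig_one]
  show qExpand ℂ (N * ℓ) (coeffMap ιK (qExpand Kbar ℓ (y : LaurentSeries Kbar))) = _
  rw [coeffMap_qExpand748, qExpand_qExpand ℓ N]

theorem embR_some_beta (b : Fin ℓ) (y : FF N) :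
    embR N ℓ hcop (some b) (heckeBetaBar Kbar N ℓ y)
      = qExpand ℂ N (infTwist (infRoot ((b : ℕ) : ℤ) ℓ)
          (coeffMap ιK (y : LaurentSeries Kbar))) :=
  sig_beta N ℓ (hmat_mem N ℓ hcop _) _ (hmat_dvd N ℓ hcop _) y

/-- The product of the `ℓ + 1` conjugates of `β y`. -/
theorem prod_embR_beta (y : FF N) :
    ∏ i : Option (Fin ℓ), embR N ℓ hcop i (heckeBetaBar Kbar N ℓ y)
      = HolBase.Φ (N * ℓ) (H400.kronNorm ℓ (y : LaurentSeries Kbar)) := by
  rw [Fintype.prod_option, embR_none_beta]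
  simp only [embR_some_beta]
  rw [← map_prod, ← map_mul, ← qExpand_kronNorm_eq_prod, qExpand_qExpand ℓ N,
    ← H400.coeffMap_kronNorm]
  rfl

/-! ### Distinctness -/

theorem coeff_embR_none (hℓ : 2 ≤ ℓ) :
    (embR N ℓ hcop none (heckeBetaBar Kbar N ℓ (jF N))).coeff ((N : ℤ) * (-1)) = 0 := by
  rw [embR_none_beta, qExpand_coeff_mul]
  apply qExpand_coeff_of_not_dvd
  intro h
  have h1 : (ℓ : ℤ) ∣ 1 := (dvd_neg).mp h
  have h2 : (ℓ : ℤ) ≤ 1 := Int.le_of_dvd one_pos h1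
  have h3 : (2 : ℤ) ≤ ℓ := by exact_mod_cast hℓ
  omega

theorem coeff_embR_some (b : Fin ℓ) :
    (embR N ℓ hcop (some b) (heckeBetaBar Kbar N ℓ (jF N))).coeff ((N : ℤ) * (-1))
      = (((infRoot ((b : ℕ) : ℤ) ℓ)⁻¹ : ℂˣ) : ℂ) := by
  rw [embR_some_beta, qExpand_coeff_mul, infTwist_coeff, coeffMap_coeff]
  have h1 : ((jF N : FF N) : LaurentSeries Kbar).coeff (-1) = 1 := by
    show (coeffEmb Kbar jq).coeff (-1) = 1
    rw [coeffEmb_coeff, coeff_jq_neg_one, map_one]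
  rw [h1, map_one, one_mul, zpow_neg_one]

theorem embR_injective (hℓ : 2 ≤ ℓ) : Function.Injective (embR N ℓ hcop) := by
  have hℓ0 : 0 < ℓ := by omega
  intro i j hij
  have key : (embR N ℓ hcop i (heckeBetaBar Kbar N ℓ (jF N))).coeff ((N : ℤ) * (-1))
      = (embR N ℓ hcop j (heckeBetaBar Kbar N ℓ (jF N))).coeff ((N : ℤ) * (-1)) := by
    rw [hij]
  cases i with
  | none =>
    cases j with
    | none => rfl
    | some b =>
      rw [coeff_embR_none N ℓ hcop hℓ, coeff_embR_some] at key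
      exact absurd key.symm (Units.ne_zero _)
  | some a =>
    cases j with
    | none =>
      rw [coeff_embR_none N ℓ hcop hℓ, coeff_embR_some] at key
      exact absurd key (Units.ne_zero _)
    | some b =>
      rw [coeff_embR_some, coeff_embR_some] at key
      have h1 : infRoot ((a : ℕ) : ℤ) ℓ = infRoot ((b : ℕ) : ℤ) ℓ :=
        inv_injective (Units.ext key)
      have h2 := (infRoot_eq_iff hℓ0).mp h1
      congr 1
      apply Fin.ext
      have ha := a.2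
      have hb := b.2
      obtain ⟨c, hc⟩ := h2
      have hc0 : c = 0 := by
        by_contra hne
        have : (1 : ℤ) ≤ |c| := Int.one_le_abs hne
        have h3 : |((a : ℕ) : ℤ) - ((b : ℕ) : ℤ)| = ℓ * |c| := by
          rw [hc, abs_mul, Nat.abs_cast]
        have h4 : |((a : ℕ) : ℤ) - ((b : ℕ) : ℤ)| < ℓ := by
          rw [abs_lt]
          constructor <;> omega
        nlinarith
      rw [hc0, mul_zero] at hc
      omega

/-! ### The norm identity -/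

/-- **NORM-ID.** For a prime `ℓ ∤ N` and `y ∈ ℚ̄(X₀(N))`:
`Nm_α (β y) = kronNorm ℓ y` as Laurent series. -/
theorem norm_heckeBetaBar_eq_kronNorm (N ℓ : ℕ) [NeZero N] (hℓ : ℓ.Prime) (hℓN : ¬ ℓ ∣ N)
    (y : FF N) :
    haveI : NeZero ℓ := ⟨hℓ.ne_zero⟩
    letI := algebraAlong (heckeAlphaBar Kbar N ℓ)
    ((Algebra.norm (FF N) (heckeBetaBar Kbar N ℓ y) : FF N) : LaurentSeries Kbar)
      = H400.kronNorm ℓ (y : LaurentSeries Kbar) := by
  haveI : NeZero ℓ := ⟨hℓ.ne_zero⟩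
  letI alg1 := algebraAlong (heckeAlphaBar Kbar N ℓ)
  have hcop : Nat.Coprime ℓ N := (Nat.Prime.coprime_iff_not_dvd hℓ).mpr hℓN
  letI alg2 : Algebra (FF N) (LaurentSeries ℂ) :=
    ((sig (N * ℓ) 1).comp (heckeAlphaBar Kbar N ℓ).toRingHom).toAlgebra
  haveI : FiniteDimensional (FF N) (FF (N * ℓ)) := finiteDimensional_heckeAlphaBar N ℓ hℓ hℓN
  let e : Option (Fin ℓ) → (FF (N * ℓ) →ₐ[FF N] LaurentSeries ℂ) := fun i =>
    { embR N ℓ hcop i with
      commutes' := fun x => embR_alpha N ℓ hcop i x }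
  have he : Function.Injective e := by
    intro i j hij
    apply embR_injective N ℓ hcop hℓ.two_le
    refine RingHom.ext fun x => ?_
    exact congrArg (fun f : FF (N * ℓ) →ₐ[FF N] LaurentSeries ℂ => f x) hij
  have hcard : Fintype.card (Option (Fin ℓ)) = Module.finrank (FF N) (FF (N * ℓ)) := by
    rw [finrank_heckeAlphaBar N ℓ hℓ hℓN, Fintype.card_option, Fintype.card_fin]
  have key := norm_eq_prod_of_embeddings748 e he hcard (heckeBetaBar Kbar N ℓ y)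
  have h1 : algebraMap (FF N) (LaurentSeries ℂ)
      (Algebra.norm (FF N) (heckeBetaBar Kbar N ℓ y))
      = HolBase.Φ (N * ℓ)
        ((Algebra.norm (FF N) (heckeBetaBar Kbar N ℓ y) : FF N) : LaurentSeries Kbar) := by
    show sig (N * ℓ) 1 (heckeAlphaBar Kbar N ℓ _) = _
    rw [sig_one, coe_heckeAlphaBar]
  have h2 : ∏ i, e i (heckeBetaBar Kbar N ℓ y)
      = HolBase.Φ (N * ℓ) (H400.kronNorm ℓ (y : LaurentSeries Kbar)) :=
    prod_embR_beta N ℓ hcop y
  rw [h1, h2] at key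
  exact HolBase.Φ_injective key

end Fermat.Agent.S37.H748
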