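import Fermat.Agent.S37.H508.RimCharts
import Fermat.Agent.Lib.RR.H383.Fundamental
import Fermat.Agent.S18.H383.FF1Modular
import Fermat.Agent.S28.H988.Degree
import Fermat.Agent.Lib.X0Branch.H997Branch
import Fermat.Agent.Lib.FF398.Hecke

/-!
# S37 / node_rim — field `FI` of helper508's `RimSkel` (helper748)

The zero divisor of `j⁻¹` has the same degree `ψ(N)` on the generic fibre `ℚ̄(X₀(N))` and on the
special fibre `k(X₀(N))` (`k = A/𝔪`, `A` over `ℓ ∤ N`).

* `sum_max_ord_eq_finrank` : generic (any characteristic, `K` algebraically closed):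
  `∑_{P ∈ supp D} max (D P) 0 = [F : K(x)]` if `D P = ord_P x` for all `P`;
* `finrank_adjoin_jC_eq_psi` : `[k(X₀(N)) : k(j)] = ψ(N)` as a `finrank` over `k⟮j⟯`;
* `FI` : the field `FI` of `H508.Skel` (exact statement).
-/

set_option autoImplicit false

noncomputable section

namespace Fermat.Agent.S37.H748

open ModularCurve HahnSeries AlgebraicCurve Polynomial IntermediateField
open Fermat.Agent.S37.H518 Fermat.Agent.S37.H508 Fermat.Agent.S24.H504 Fermat.Agent.S24

section Generic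

variable {K F : Type*} [Field K] [Field F] [Algebra K F] [IsAlgClosed K]

/-- the degree of the zero divisor of `x` is `[F : K(x)]` (any characteristic) -/
theorem sum_max_ord_eq_finrank {x : F} (hx : Transcendental K x) [FiniteDimensional K⟮x⟯ F]
    (D : Divisor K F) (hD : ∀ P, D P = P.ord x) :
    ∑ P ∈ D.support, max (D P) 0 = (Module.finrank K⟮x⟯ F : ℤ) := by
  classical
  have hS : ∀ v, v ∈ D.support.filter (fun P => 0 < P.ord x) ↔ 0 < v.ord x := by
    intro v
    rw [Finset.mem_filter, Finsupp.mem_support_iff, hD]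
    constructor
    · exact fun h => h.2
    · exact fun h => ⟨ne_of_gt h, h⟩
  rw [← Fermat.Agent.Lib.RR.H383.sum_ord_eq_finrank
    (Fermat.Agent.Lib.RR.H383.finite_of_finite hx)
    (Fermat.Agent.Lib.RR.H383.deg_eq_one_of_finite hx) hx _ hS, Finset.sum_filter]
  refine Finset.sum_congr rfl fun P _ => ?_
  rw [hD]
  split_ifs with h
  · exact max_eq_left h.le
  · exact max_eq_right (not_lt.mp h)

theorem adjoin_inv_eq748 (f : F) : K⟮f⁻¹⟯ = K⟮f⟯ := by
  apply le_antisymm
  · rw [adjoin_simple_le_iff]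
    exact inv_mem (mem_adjoin_simple_self K f)
  · rw [adjoin_simple_le_iff]
    have h2 : (f⁻¹)⁻¹ ∈ K⟮f⁻¹⟯ := inv_mem (mem_adjoin_simple_self K f⁻¹)
    rwa [inv_inv] at h2

theorem finrank_adjoin_inv748 (f : F) : Module.finrank K⟮f⁻¹⟯ F = Module.finrank K⟮f⟯ F :=
  congrArg (fun E : IntermediateField K F => Module.finrank E F) (adjoin_inv_eq748 f)

end Generic

section Degree

variable (k : Type*) [Field k] (N : ℕ) [NeZero N]

/-- `[k(X₀(N)) : k(j)] = ψ(N)`, as a `finrank` over `k⟮j⟯ ⊆ k(X₀(N))`. -/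
theorem finrank_adjoin_jC_eq_psi (hchar : ∀ p : ℕ, p.Prime → p ∣ N → (p : k) ≠ 0) :
    Module.finrank k⟮(⟨jqModC k, jqModC_mem_full k N⟩ : modularFunctionFieldFullC k N)⟯
      (modularFunctionFieldFullC k N) = dedekindPsi N := by
  have h1 := congrArg (fun E : IntermediateField k (modularFunctionFieldFullC k N) =>
    Module.finrank E (modularFunctionFieldFullC k N))
    (Fermat.Agent.S18.H739.adjoin_jC_eq_comap k N)
  rw [h1, IntermediateField.finrank_comap, IntermediateField.fieldRange_val]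
  exact Fermat.Agent.S28.H988.relfinrank_jField_full_eq k N (NeZero.ne N) hchar

end Degree

section FI

variable (N : ℕ) [NeZero N] {ℓ : ℕ} (hℓ : ℓ.Prime) (hℓN : ¬ ℓ ∣ N)
  (A : ValuationSubring (AlgebraicClosure ℚ)) (hA : A.LiesOverPrime ℓ)

local notation "πA" => IsLocalRing.residue A
local notation "kA" => IsLocalRing.ResidueField A
local notation "Fb" => modularFunctionFieldBar N
local notation "Fk" => modularFunctionFieldFullC kA N
local notation "ιA" => iotaF A πA N
local notation "ρA" => rhoF A πA N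

theorem iotaF_jInvInt : ιA (jInvInt A N) = (jF N)⁻¹ := by
  apply Subtype.ext
  have h3 : coeffEmb (AlgebraicClosure ℚ) jq = jqModC (AlgebraicClosure ℚ) := by
    rw [← jqModC_rat]
    exact coeffMap_jqModC _
  rw [coe_iotaF, coe_jInvInt, coeffMap_jInvS, jInvS_eq_inv, ← h3]
  rfl

theorem rhoF_jInvInt : ρA (jInvInt A N) =
    (⟨jqModC kA, jqModC_mem_full kA N⟩ : Fk)⁻¹ := by
  apply Subtype.ext
  rw [coe_rhoF, coe_jInvInt, coeffMap_jInvS, jInvS_eq_inv]
  rfl

include hℓ hℓN hA

/-- **Field `FI` of `H508.Skel`** (exact statement): the zero divisor of `j⁻¹` has the same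
degree on both fibres, namely `ψ(N)`. -/
theorem FI (D₁ : Divisor (AlgebraicClosure ℚ) Fb) (E₁ : Divisor kA Fk)
    (hD : ∀ P, D₁ P = P.ord (ιA (jInvInt A N))) (hE : ∀ Q, E₁ Q = Q.ord (ρA (jInvInt A N))) :
    ∑ P ∈ D₁.support, max (D₁ P) 0 = ∑ Q ∈ E₁.support, max (E₁ Q) 0 := by
  haveI := Fermat.Agent.S18.H9.resAlgClosed _ A
  have hchar : ∀ p : ℕ, p.Prime → p ∣ N → (p : kA) ≠ 0 := fun p hp hpN =>
    Fermat.Agent.S18.H9.resChar _ A ℓ p hℓ hp hA (by rintro rfl; exact hℓN hpN)
  -- generic fibre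
  have hxb : Transcendental (AlgebraicClosure ℚ) ((jF N)⁻¹ : FF N) := fun h =>
    Fermat.Agent.Lib.FF398.transcendental_jF N (by simpa using h.inv)
  haveI hfb : FiniteDimensional (AlgebraicClosure ℚ)⟮((jF N)⁻¹ : FF N)⟯ (FF N) := by
    rw [adjoin_inv_eq748]
    exact Fermat.Agent.Lib.X0Branch.finiteDimensional_FF N
  have e1 := sum_max_ord_eq_finrank hxb D₁ (fun P => by rw [hD, iotaF_jInvInt])
  -- special fibre
  have hxk0 := Fermat.Agent.S18.H739.transcendental_jC kA N
  have hxk : Transcendental kA ((⟨jqModC kA, jqModC_mem_full kA N⟩ : Fk)⁻¹) := fun h =>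
    hxk0 (by simpa using h.inv)
  haveI hfk : FiniteDimensional kA⟮((⟨jqModC kA, jqModC_mem_full kA N⟩ : Fk)⁻¹)⟯ Fk := by
    rw [adjoin_inv_eq748]
    exact Fermat.Agent.S18.H739.finiteDimensional_adjoin_jC kA N hchar
  have e2 := sum_max_ord_eq_finrank hxk E₁ (fun Q => by rw [hE, rhoF_jInvInt])
  rw [e1, e2, finrank_adjoin_inv748,
    finrank_adjoin_inv748,
    Fermat.Agent.Lib.X0Branch.finrank_FF_eq_psi, finrank_adjoin_jC_eq_psi kA N hchar]

end FI

end Fermat.Agent.S37.H748
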